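import Fermat.Agent.S56.GW.EC.L2.Final
import Fermat.Agent.S56.GW.EC.H3Loc.Stmt
import Fermat.Agent.S56.GW.LEC.H2.Final

/-!
# [EC-L2] closed term: `s56el2_closed : s56egb_L2_stmt`

`(L2≤)`: `h²(G_q, M') ≤ h⁰(G_q, M)`, with no hypothesis left: local right-exactness
`s56eh_RE_stmt` ([EC-SYL] + [EC-H3-loc]) and `s56lh_BR` ([LEC-H2]) are plugged in.
-/

set_option autoImplicit false

namespace Fermat.Agent.S56

/-- **[EC-L2]**, closed. -/
theorem s56el2_closed : s56egb_L2_stmt := s56el2_final s56eh_RE_stmt s56lh_BR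

/-- **[GW-LEC]**, closed (helper18's `s56lh_LEC` at helper15's `s56eh_H3_stmt`). -/
theorem s56el2_LEC_closed : s56gw_LEC_stmt := s56lh_LEC s56eh_H3_stmt

end Fermat.Agent.S56
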