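import Fermat.Agent.S56.GW.LEC.Seams

/-!
# [EC-L2] the local Galois group acts on `μ_p ⊂ (PadicAlgCl q)ˣ` through the global mod `p`
cyclotomic character
-/

set_option autoImplicit false
set_option linter.style.haveILetI false

open Fermat.Agent.S55 ExtCitation

namespace Fermat.Agent.S56

local notation "Qbar" => AlgebraicClosure ℚ
local notation "GQ" => (AlgebraicClosure ℚ ≃ₐ[ℚ] AlgebraicClosure ℚ)

/-- The defining property of the prelude's `cycloExp`. -/
theorem s56el2_cycloExp_spec (p : ℕ) [hp : Fact p.Prime] (σ : GQ) (μ : Qbar) (hμ : μ ^ p = 1) :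
    σ μ = μ ^ cycloExp p σ := by
  haveI : NeZero p := ⟨hp.out.ne_zero⟩
  have hu : IsUnit μ := IsUnit.of_pow_eq_one hμ (NeZero.ne p)
  obtain ⟨u, rfl⟩ := hu
  have hmem : u ∈ rootsOfUnity p Qbar := by
    rw [mem_rootsOfUnity]
    exact Units.ext (by simpa using hμ)
  exact modularCyclotomicCharacter.spec Qbar (card_rootsOfUnity_eq_self p)
    (σ : Qbar ≃+* Qbar) hmem

/-- Every `p`-th root of unity of `PadicAlgCl q` comes from `ℚ̄`. -/
theorem s56el2_root_from_Qbar (p : ℕ) [hp : Fact p.Prime] (q : ℕ) [Fact q.Prime]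
    (u : PadicAlgCl q) (hu : u ^ p = 1) : ∃ z : Qbar, z ^ p = 1 ∧ padicEmbedding q z = u := by
  haveI : NeZero p := ⟨hp.out.ne_zero⟩
  obtain ⟨z, hz⟩ := HasEnoughRootsOfUnity.exists_primitiveRoot Qbar p
  have hz' : IsPrimitiveRoot (padicEmbedding q z) p :=
    hz.map_of_injective (padicEmbedding q).toRingHom.injective
  obtain ⟨i, -, hi⟩ := hz'.eq_pow_of_pow_eq_one hu
  refine ⟨z ^ i, ?_, ?_⟩
  · rw [← pow_mul, mul_comm, pow_mul, hz.pow_eq_one, one_pow]
  · rw [map_pow, hi]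

/-- **`G_q` acts on `μ_p` through the cyclotomic character.** -/
theorem s56el2_mu_smul (p : ℕ) [hp : Fact p.Prime] (q : Nat.Primes)
    (g : primeLocalGaloisGroup q) (ζ : ↥(s56l_mu p q)) :
    g • ζ = cycloExp p (primeLocalToGlobal q g) • ζ := by
  haveI : Fact (q : ℕ).Prime := ⟨q.2⟩
  apply Subtype.ext
  rw [s56l_tor.coe_smul, AddSubgroup.coe_nsmul]
  apply Additive.toMul.injective
  apply Units.ext
  have hu : ((tl_locUnits.val q (ζ : tl_locUnits q) : (PadicAlgCl (q : ℕ))ˣ) :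
      PadicAlgCl (q : ℕ)) ^ p = 1 := by
    have h1 : p • (ζ : tl_locUnits q) = 0 := ζ.2
    have h2 := congrArg (fun x : tl_locUnits q =>
      ((tl_locUnits.val q x : (PadicAlgCl (q : ℕ))ˣ) : PadicAlgCl (q : ℕ))) h1
    exact h2
  obtain ⟨z, hz, hzu⟩ := s56el2_root_from_Qbar p (q : ℕ) _ hu
  have h3 := tl_locUnits.val_smul q g (ζ : tl_locUnits q)
  refine h3.trans ?_
  show _ = ((tl_locUnits.val q (ζ : tl_locUnits q) : (PadicAlgCl (q : ℕ))ˣ) :
      PadicAlgCl (q : ℕ)) ^ cycloExp p (primeLocalToGlobal q g)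
  rw [← hzu, ← map_pow, ← s56el2_cycloExp_spec p _ z hz]
  exact (padicEmbedding_localGaloisToGlobal (q : ℕ) g z).symm

end Fermat.Agent.S56
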