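import Fermat.Agent.S56.GW.EC.L2.Count
import Fermat.Agent.S56.GW.EC.L2.Mu
import Fermat.Agent.S55.Trans.H2Bridge
import Fermat.Agent.S55.DualTwistHyp

/-!
# [EC-L2] `h²(G_q, M') ≤ h⁰(G_q, M)` in the frozen vocabulary of the [GW] seams

`s56el2_main : s56l_RE_stmt → s56el2_Mu_stmt → s56el2_L2_stmt`, where `s56el2_L2_stmt` is
(verbatim) helper11's local seam `s56egb_L2_stmt`, `s56l_RE_stmt` is local right-exactness
([EC-SYL] + [EC-H3-loc]) and `s56el2_Mu_stmt` is the arithmetic input on `H²(·, μ_p)`.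
-/

set_option autoImplicit false
set_option linter.style.haveILetI false
set_option linter.unusedSectionVars false

open CategoryTheory Module groupCohomology ExtCitation Fermat.Agent.S55

namespace Fermat.Agent.S56

local notation "GQ" => (AlgebraicClosure ℚ ≃ₐ[ℚ] AlgebraicClosure ℚ)

/-- **The arithmetic input of [EC-L2]** on `Z = μ_p ⊂ (PadicAlgCl q)ˣ`: `H²(G_q, Z) ≠ 0`, and
below every level there is a normal subgroup `U` containing a level, fixing `Z`, with
`#H²(U, Z) ≤ p`. -/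
def s56el2_Mu_stmt : Prop :=
  ∀ (p : ℕ) [Fact p.Prime] (q : Nat.Primes),
    (∃ y : lvH2 (tl_levelsLoc q) ↥(s56l_mu p q), y ≠ 0) ∧
    ∀ V ∈ (tl_levelsLoc q).levels, ∃ U : Subgroup (primeLocalGaloisGroup q),
      U.Normal ∧ U ≤ V ∧ (∃ V' ∈ (tl_levelsLoc q).levels, V' ≤ U) ∧
      (∀ u ∈ U, ∀ ζ : ↥(s56l_mu p q), u • ζ = ζ) ∧
      Finite (lvH2 (s56esh_LU (tl_levelsLoc q) U) ↥(s56l_mu p q)) ∧
      Nat.card (lvH2 (s56esh_LU (tl_levelsLoc q) U) ↥(s56l_mu p q)) ≤ p

/-- **(L2≤)**: `h²(G_q, M') ≤ h⁰(G_q, M)` (verbatim `s56egb_L2_stmt`). -/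
def s56el2_L2_stmt : Prop :=
  ∀ (p : ℕ) [Fact p.Prime], p ≠ 2 →
  ∀ (M : Rep.{0} (ZMod p) GQ) [FiniteDimensional (ZMod p) M], s56gw_Smooth M →
  ∀ q : Nat.Primes,
    finrank (ZMod p) (continuousH2 (primeLocalToGlobal q) (s56gw_res (s56gw_dual M) q))
      ≤ finrank (ZMod p) (s56gw_res M q).ρ.invariants

section

variable {p : ℕ} [hp : Fact p.Prime] (M : Rep.{0} (ZMod p) GQ)

/-- A smooth `G_ℚ`-module restricts to a smooth `G_q`-module. -/
theorem s56el2_locSmooth (hsm : ∀ m : M, ∃ F : IntermediateField ℚ (AlgebraicClosure ℚ),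
      FiniteDimensional ℚ F ∧ ∀ s ∈ F.fixingSubgroup, M.ρ s m = m) (q : Nat.Primes) :
    (tl_levelsLoc q).IsSmooth (tl_Act (s56gw_res M q)) := by
  intro x
  obtain ⟨F, hF, h⟩ := hsm x
  exact ⟨F.fixingSubgroup.comap (primeLocalToGlobal q), ⟨_, ⟨F, hF, rfl⟩, rfl⟩,
    fun σ hσ => h _ hσ⟩

variable [FiniteDimensional (ZMod p) M] (q : Nat.Primes)

/-- The identification of the dual of `M` with the module `M'|G_q` of the level formalism. -/
def s56el2_toX : Module.Dual (ZMod p) M ≃ₗ[ZMod p] tl_Act (s56gw_res (s56gw_dual M) q) :=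
  LinearEquiv.refl (ZMod p) (Module.Dual (ZMod p) M)

theorem s56el2_toX_smul (g : primeLocalGaloisGroup q) (f : Module.Dual (ZMod p) M) :
    g • s56el2_toX M q f = s56el2_toX M q
      (((cycloChar p (primeLocalToGlobal q g) : (ZMod p)ˣ) : ZMod p) •
        (f ∘ₗ M.ρ (primeLocalToGlobal q g)⁻¹)) := rfl

/-- The element of `M` attached to an equivariant map `M' → μ_p` (double duality). -/
noncomputable def s56el2_vec (e : ZMod p ≃+ ↥(s56l_mu p q))
    (φ : s56el2_GHom (primeLocalGaloisGroup q) (tl_Act (s56gw_res (s56gw_dual M) q))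
      ↥(s56l_mu p q)) : M :=
  (Module.evalEquiv (ZMod p) M).symm
    (((e.symm.toAddMonoidHom.comp φ.1).toZModLinearMap p).comp (s56el2_toX M q).toLinearMap)

theorem s56el2_vec_spec (e : ZMod p ≃+ ↥(s56l_mu p q))
    (φ : s56el2_GHom (primeLocalGaloisGroup q) (tl_Act (s56gw_res (s56gw_dual M) q))
      ↥(s56l_mu p q)) (f : Module.Dual (ZMod p) M) :
    f (s56el2_vec M q e φ) = e.symm (φ.1 (s56el2_toX M q f)) := by
  rw [s56el2_vec, Module.apply_evalEquiv_symm_apply]
  rfl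

theorem s56el2_vec_inv (e : ZMod p ≃+ ↥(s56l_mu p q))
    (φ : s56el2_GHom (primeLocalGaloisGroup q) (tl_Act (s56gw_res (s56gw_dual M) q))
      ↥(s56l_mu p q)) (g : primeLocalGaloisGroup q) :
    M.ρ (primeLocalToGlobal q g)⁻¹ (s56el2_vec M q e φ) = s56el2_vec M q e φ := by
  rw [← sub_eq_zero, ← Module.forall_dual_apply_eq_zero_iff (ZMod p)]
  intro f
  rw [map_sub, sub_eq_zero]
  -- equivariance of `φ` at `f`
  have h1 := φ.2 g (s56el2_toX M q f)
  rw [s56el2_mu_smul p q g, s56el2_toX_smul] at h1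
  have h2 := congrArg e.symm h1
  rw [map_nsmul, ← s56el2_vec_spec, ← s56el2_vec_spec] at h2
  rw [LinearMap.smul_apply, LinearMap.comp_apply, smul_eq_mul, nsmul_eq_mul,
    ← coe_cycloChar] at h2
  exact (Units.isUnit _).mul_left_cancel h2

theorem s56el2_hom_le :
    Nat.card (s56el2_GHom (primeLocalGaloisGroup q) (tl_Act (s56gw_res (s56gw_dual M) q))
      ↥(s56l_mu p q)) ≤ Nat.card (s56gw_res M q).ρ.invariants := by
  obtain ⟨e⟩ := s56el2_zmod_equiv p (s56l_mu_card p q)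
  have hMfin : Finite M := Module.finite_of_finite (ZMod p)
  have hinv : ∀ φ, s56el2_vec M q e φ ∈ (s56gw_res M q).ρ.invariants := by
    intro φ g
    have := s56el2_vec_inv M q e φ g⁻¹
    rw [map_inv (primeLocalToGlobal q), inv_inv] at this
    exact this
  apply Nat.card_le_card_of_injective
    (fun φ => (⟨s56el2_vec M q e φ, hinv φ⟩ : (s56gw_res M q).ρ.invariants))
  intro φ φ' h
  have h1 : s56el2_vec M q e φ = s56el2_vec M q e φ' := congrArg Subtype.val h
  apply s56el2_gext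
  intro x
  obtain ⟨f, rfl⟩ := (s56el2_toX M q).surjective x
  have h2 := s56el2_vec_spec M q e φ f
  rw [h1, s56el2_vec_spec] at h2
  exact (e.symm.injective h2).symm

end

/-- **[EC-L2] main theorem.** -/
theorem s56el2_main (hRE : s56l_RE_stmt) (hMu : s56el2_Mu_stmt) : s56el2_L2_stmt := by
  intro p _ hp2 M _ hsm q
  have hp : Fact p.Prime := inferInstance
  obtain ⟨hne, hUex⟩ := hMu p q
  -- the module `X = M'` restricted to `G_q`
  have hXsm : (tl_levelsLoc q).IsSmooth (tl_Act (s56gw_res (s56gw_dual M) q)) :=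
    s56el2_locSmooth (s56gw_dual M) (tl_dualTwist_smooth M hsm) q
  have hXfin : Finite (tl_Act (s56gw_res (s56gw_dual M) q)) := by
    have : Finite (Module.Dual (ZMod p) M) := Module.finite_of_finite (ZMod p)
    exact this
  have hpX : ∀ x : tl_Act (s56gw_res (s56gw_dual M) q), p • x = 0 :=
    fun x => ZModModule.char_nsmul_eq_zero p x
  obtain ⟨V₀, hV₀⟩ := (tl_levelsLoc q).nonempty
  obtain ⟨V, hV, -, -, hVfix⟩ := hXsm.exists_level (tl_levelsLoc q)
    (Set.finite_univ (α := tl_Act (s56gw_res (s56gw_dual M) q))) hV₀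
  obtain ⟨U, hUn, hUV, hUl, hUμ, hfinU, hcardU⟩ := hUex V hV
  have hRE' : s56el2_RE (tl_levelsLoc q) p :=
    fun A B C _ _ _ _ _ _ E _ hB hA => hRE p q E hB hA
  obtain ⟨hfin, hle⟩ := s56el2_count hRE' ↥(s56l_mu p q) (s56l_mu_card p q) hne U hUl hUμ
    hfinU hcardU (tl_Act (s56gw_res (s56gw_dual M) q)) hpX
    (fun u hu x => hVfix u (hUV hu) x (Set.mem_univ x))
  -- back to the frozen vocabulary
  have hcard : Nat.card (continuousH2 (primeLocalToGlobal q) (s56gw_res (s56gw_dual M) q))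
      = Nat.card (lvH2 (tl_levelsLoc q) (tl_Act (s56gw_res (s56gw_dual M) q))) :=
    Nat.card_congr (tl_H2via_equiv (primeLocalToGlobal q) (s56gw_res (s56gw_dual M) q)).toEquiv
  haveI hfin' : Finite (lvH2 (tl_levelsVia (primeLocalToGlobal q))
      (tl_Act (s56gw_res (s56gw_dual M) q))) := hfin
  have hfinH : Finite (continuousH2 (primeLocalToGlobal q) (s56gw_res (s56gw_dual M) q)) :=
    Finite.of_equiv _
      (tl_H2via_equiv (primeLocalToGlobal q) (s56gw_res (s56gw_dual M) q)).toEquiv.symm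
  have hMfin : Finite M := Module.finite_of_finite (ZMod p)
  have hle' := hle.trans (s56el2_hom_le M q)
  rw [← hcard, Module.natCard_eq_pow_finrank (K := ZMod p),
    Module.natCard_eq_pow_finrank (K := ZMod p) (V := (s56gw_res M q).ρ.invariants)] at hle'
  have hp1 : 1 < Nat.card (ZMod p) := by
    rw [Nat.card_eq_fintype_card, ZMod.card]
    exact hp.out.one_lt
  exact (Nat.pow_le_pow_iff_right hp1).1 hle'

end Fermat.Agent.S56
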