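import Fermat.Agent.S55.Level.LES

/-!
# [EC-L2] coefficient functoriality of `lvH2`, additivity, and the map `θ`

`G` a group with a level system `L`.  For `G`-modules `X`, `Y`:

* `s56el2_GHom G X Y` : the additive group of equivariant additive maps `X →+ Y`;
* `s56el2_push L φ : lvH2 L X →+ lvH2 L Y` : the induced map, additive in `φ`, functorial;
* `s56el2_theta L X μ : lvH2 L X →+ (s56el2_GHom G X μ →+ lvH2 L μ)`, `y ↦ (φ ↦ φ_* y)`.
-/

set_option autoImplicit false

namespace Fermat.Agent.S56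

open Fermat.Agent.S55 groupCohomology

section GHom

variable (G : Type*) [Group G] (X Y : Type*) [AddCommGroup X] [DistribMulAction G X]
  [AddCommGroup Y] [DistribMulAction G Y]

/-- Equivariant additive maps. -/
def s56el2_GHom : AddSubgroup (X →+ Y) where
  carrier := {φ | ∀ (g : G) (x : X), φ (g • x) = g • φ x}
  zero_mem' := fun g x => by simp
  add_mem' := by
    intro φ ψ hφ hψ g x
    simp only [AddMonoidHom.add_apply, hφ g x, hψ g x, smul_add]
  neg_mem' := by
    intro φ hφ g x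
    simp only [AddMonoidHom.neg_apply, hφ g x, smul_neg]

variable {G X Y}

theorem s56el2_gequiv (φ : s56el2_GHom G X Y) (g : G) (x : X) :
    φ.1 (g • x) = g • φ.1 x := φ.2 g x

/-- Build an equivariant map. -/
def s56el2_gmk (φ : X →+ Y) (h : ∀ (g : G) (x : X), φ (g • x) = g • φ x) :
    s56el2_GHom G X Y := ⟨φ, h⟩

@[simp] theorem s56el2_gmk_apply (φ : X →+ Y) (h : ∀ (g : G) (x : X), φ (g • x) = g • φ x)
    (x : X) : (s56el2_gmk φ h).1 x = φ x := rfl

theorem s56el2_gext {φ ψ : s56el2_GHom G X Y} (h : ∀ x, φ.1 x = ψ.1 x) : φ = ψ :=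
  Subtype.ext (AddMonoidHom.ext h)

/-- The identity. -/
def s56el2_gid (G : Type*) [Group G] (X : Type*) [AddCommGroup X] [DistribMulAction G X] :
    s56el2_GHom G X X := ⟨AddMonoidHom.id X, fun _ _ => rfl⟩

/-- Composition. -/
def s56el2_gcomp {Z : Type*} [AddCommGroup Z] [DistribMulAction G Z]
    (ψ : s56el2_GHom G Y Z) (φ : s56el2_GHom G X Y) : s56el2_GHom G X Z :=
  ⟨ψ.1.comp φ.1, fun g x => by
    rw [AddMonoidHom.comp_apply, AddMonoidHom.comp_apply, φ.2, ψ.2]⟩

@[simp] theorem s56el2_gcomp_apply {Z : Type*} [AddCommGroup Z] [DistribMulAction G Z]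
    (ψ : s56el2_GHom G Y Z) (φ : s56el2_GHom G X Y) (x : X) :
    (s56el2_gcomp ψ φ).1 x = ψ.1 (φ.1 x) := rfl

@[simp] theorem s56el2_gid_apply (x : X) : (s56el2_gid G X).1 x = x := rfl

theorem s56el2_gcomp_add {Z : Type*} [AddCommGroup Z] [DistribMulAction G Z]
    (ψ : s56el2_GHom G Y Z) (φ φ' : s56el2_GHom G X Y) :
    s56el2_gcomp ψ (φ + φ') = s56el2_gcomp ψ φ + s56el2_gcomp ψ φ' :=
  s56el2_gext fun x => by
    simp only [s56el2_gcomp_apply, AddSubgroup.coe_add, AddMonoidHom.add_apply, map_add]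

theorem s56el2_gadd_comp {Z : Type*} [AddCommGroup Z] [DistribMulAction G Z]
    (ψ ψ' : s56el2_GHom G Y Z) (φ : s56el2_GHom G X Y) :
    s56el2_gcomp (ψ + ψ') φ = s56el2_gcomp ψ φ + s56el2_gcomp ψ' φ :=
  s56el2_gext fun x => by
    simp only [s56el2_gcomp_apply, AddSubgroup.coe_add, AddMonoidHom.add_apply]

end GHom

section Push

variable {G : Type*} [Group G] (L : LevelSys G) {X Y Z : Type*} [AddCommGroup X]
  [DistribMulAction G X] [AddCommGroup Y] [DistribMulAction G Y] [AddCommGroup Z]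
  [DistribMulAction G Z]

/-- The coefficient morphism of an equivariant map. -/
def s56el2_mor (φ : s56el2_GHom G X Y) : LvMor L X L Y := LvMor.ofCoeff L φ.1 φ.2

/-- The map induced on `lvH2` by an equivariant map. -/
def s56el2_push (φ : s56el2_GHom G X Y) : lvH2 L X →+ lvH2 L Y := (s56el2_mor L φ).H2

theorem s56el2_push_mk (φ : s56el2_GHom G X Y) (c : lvZ2 L X) :
    s56el2_push L φ (lvH2mk L X c) = lvH2mk L Y ((s56el2_mor L φ).Z2 c) := rfl

theorem s56el2_push_add (φ ψ : s56el2_GHom G X Y) (y : lvH2 L X) :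
    s56el2_push L (φ + ψ) y = s56el2_push L φ y + s56el2_push L ψ y := by
  obtain ⟨c, rfl⟩ := lvH2mk_surjective y
  rw [s56el2_push_mk, s56el2_push_mk, s56el2_push_mk, ← map_add]
  congr 1

theorem s56el2_push_zero (y : lvH2 L X) : s56el2_push L (0 : s56el2_GHom G X Y) y = 0 := by
  obtain ⟨c, rfl⟩ := lvH2mk_surjective y
  rw [s56el2_push_mk, ← map_zero (lvH2mk L Y)]
  congr 1

theorem s56el2_push_id (y : lvH2 L X) : s56el2_push L (s56el2_gid G X) y = y := by
  obtain ⟨c, rfl⟩ := lvH2mk_surjective y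
  rfl

theorem s56el2_push_comp (ψ : s56el2_GHom G Y Z) (φ : s56el2_GHom G X Y) (y : lvH2 L X) :
    s56el2_push L (s56el2_gcomp ψ φ) y = s56el2_push L ψ (s56el2_push L φ y) := by
  obtain ⟨c, rfl⟩ := lvH2mk_surjective y
  rfl

/-- `φ ↦ φ_*` as an additive map. -/
def s56el2_pushHom : s56el2_GHom G X Y →+ (lvH2 L X →+ lvH2 L Y) where
  toFun φ := s56el2_push L φ
  map_zero' := AddMonoidHom.ext fun y => s56el2_push_zero L y
  map_add' φ ψ := AddMonoidHom.ext fun y => s56el2_push_add L φ ψ y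

@[simp] theorem s56el2_pushHom_apply (φ : s56el2_GHom G X Y) (y : lvH2 L X) :
    s56el2_pushHom L φ y = s56el2_push L φ y := rfl

theorem s56el2_push_sum {ι : Type*} (s : Finset ι) (φ : ι → s56el2_GHom G X Y) (y : lvH2 L X) :
    s56el2_push L (∑ i ∈ s, φ i) y = ∑ i ∈ s, s56el2_push L (φ i) y := by
  rw [← s56el2_pushHom_apply, map_sum, AddMonoidHom.finsetSum_apply]
  rfl

theorem s56el2_push_nsmul (n : ℕ) (φ : s56el2_GHom G X Y) (y : lvH2 L X) :
    s56el2_push L (n • φ) y = n • s56el2_push L φ y := by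
  rw [← s56el2_pushHom_apply, map_nsmul, AddMonoidHom.nsmul_apply]
  rfl

variable (X) in
/-- `θ_X : H²(X) → Hom(Hom_G(X, μ), H²(μ))`, `y ↦ (φ ↦ φ_* y)`. -/
def s56el2_theta (μ : Type*) [AddCommGroup μ] [DistribMulAction G μ] :
    lvH2 L X →+ (s56el2_GHom G X μ →+ lvH2 L μ) :=
  (s56el2_pushHom L (X := X) (Y := μ)).flip

@[simp] theorem s56el2_theta_apply {μ : Type*} [AddCommGroup μ] [DistribMulAction G μ]
    (y : lvH2 L X) (φ : s56el2_GHom G X μ) :
    s56el2_theta L X μ y φ = s56el2_push L φ y := rfl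

/-- Naturality of `θ`. -/
theorem s56el2_theta_push {μ : Type*} [AddCommGroup μ] [DistribMulAction G μ]
    (φ : s56el2_GHom G X Y) (y : lvH2 L X) (m : s56el2_GHom G Y μ) :
    s56el2_theta L Y μ (s56el2_push L φ y) m = s56el2_theta L X μ y (s56el2_gcomp m φ) := by
  rw [s56el2_theta_apply, s56el2_theta_apply, s56el2_push_comp]

end Push

end Fermat.Agent.S56
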