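import Fermat.Agent.S56.GW.EC.L2.Coeff

/-!
# [EC-L2] the four-lemma step: `θ_X` is injective if `X` has a presentation `P₁ → P₀ → X → 0`
with `θ_{P₀}` injective, `θ_{P₁}` surjective and `H²(P₀) → H²(X)` surjective
-/

set_option autoImplicit false
set_option linter.style.haveILetI false

namespace Fermat.Agent.S56

open Fermat.Agent.S55 groupCohomology

/-- Over a field, `g` factors through `f` if `ker f ≤ ker g`. -/
theorem s56el2_extend_aux {K A B C : Type*} [Field K] [AddCommGroup A] [AddCommGroup B]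
    [AddCommGroup C] [Module K A] [Module K B] [Module K C]
    (fl : A →ₗ[K] B) (gl : A →ₗ[K] C) (hk : ∀ a, fl a = 0 → gl a = 0) :
    ∃ h : B →ₗ[K] C, ∀ a, h (fl a) = gl a := by
  have hk' : LinearMap.ker fl ≤ LinearMap.ker gl := by
    intro a ha
    rw [LinearMap.mem_ker] at ha ⊢
    exact hk a ha
  have hinj : LinearMap.ker ((LinearMap.ker fl).liftQ fl le_rfl) = ⊥ :=
    Submodule.ker_liftQ_eq_bot _ _ _ le_rfl
  obtain ⟨ρ, hρ⟩ := LinearMap.exists_leftInverse_of_injective _ hinj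
  refine ⟨((LinearMap.ker fl).liftQ gl hk').comp ρ, fun a => ?_⟩
  have h2 : ρ (fl a) = Submodule.Quotient.mk a := by
    have := congrArg (fun F : (A ⧸ LinearMap.ker fl) →ₗ[K] (A ⧸ LinearMap.ker fl) =>
      F (Submodule.Quotient.mk a)) hρ
    simpa using this
  rw [LinearMap.comp_apply, h2, Submodule.liftQ_apply]

/-- Extension of additive maps between elementary abelian `p`-groups: if `ker f ≤ ker g` then
`g` factors through `f`. -/
theorem s56el2_extend (p : ℕ) [Fact p.Prime] {A B C : Type*} [AddCommGroup A] [AddCommGroup B]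
    [AddCommGroup C] (hA : ∀ a : A, p • a = 0) (hB : ∀ b : B, p • b = 0) (hC : ∀ c : C, p • c = 0)
    (f : A →+ B) (g : A →+ C) (hk : f.ker ≤ g.ker) : ∃ h : B →+ C, h.comp f = g := by
  letI : Module (ZMod p) A := AddCommGroup.zmodModule hA
  letI : Module (ZMod p) B := AddCommGroup.zmodModule hB
  letI : Module (ZMod p) C := AddCommGroup.zmodModule hC
  obtain ⟨h, hh⟩ := s56el2_extend_aux (f.toZModLinearMap p) (g.toZModLinearMap p)
    (fun a ha => hk ha)
  exact ⟨h.toAddMonoidHom, AddMonoidHom.ext fun a => hh a⟩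

section Four

variable {G : Type*} [Group G] (L : LevelSys G) {X P0 P1 μ : Type*} [AddCommGroup X]
  [DistribMulAction G X] [AddCommGroup P0] [DistribMulAction G P0] [AddCommGroup P1]
  [DistribMulAction G P1] [AddCommGroup μ] [DistribMulAction G μ]

theorem s56el2_ghom_torsion (p : ℕ) (hμ : ∀ z : μ, p • z = 0) (n : s56el2_GHom G X μ) :
    p • n = 0 := by
  apply s56el2_gext
  intro x
  rw [AddSubgroup.coe_nsmul, AddMonoidHom.nsmul_apply, hμ]
  rfl

theorem s56el2_lvH2_torsion (p : ℕ) (hμ : ∀ z : μ, p • z = 0) (y : lvH2 L μ) : p • y = 0 := by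
  have h : p • s56el2_gid G μ = 0 := s56el2_ghom_torsion p hμ _
  rw [← s56el2_push_id L y, ← s56el2_push_nsmul, h, s56el2_push_zero]

/-- Precomposition with an equivariant map. -/
def s56el2_precomp (κ : s56el2_GHom G P1 P0) : s56el2_GHom G P0 μ →+ s56el2_GHom G P1 μ where
  toFun n := s56el2_gcomp n κ
  map_zero' := s56el2_gext fun _ => rfl
  map_add' n n' := s56el2_gadd_comp n n' κ

/-- Descend an equivariant map along an equivariant surjection whose kernel it kills. -/
theorem s56el2_descend (π : s56el2_GHom G P0 X) (hπ : Function.Surjective π.1)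
    (n : s56el2_GHom G P0 μ) (h : ∀ b : P0, π.1 b = 0 → n.1 b = 0) :
    ∃ m : s56el2_GHom G X μ, s56el2_gcomp m π = n := by
  have hk : π.1.ker ≤ n.1.ker := fun b hb => h b hb
  refine ⟨⟨lvDescend π.1 hπ n.1 hk, ?_⟩, ?_⟩
  · intro g x
    obtain ⟨b, rfl⟩ := hπ x
    rw [← π.2, lvDescend_apply, lvDescend_apply, n.2]
  · apply s56el2_gext
    intro b
    exact lvDescend_apply π.1 hπ n.1 hk b

/-- **The four-lemma step.** -/
theorem s56el2_four (p : ℕ) [Fact p.Prime] (hμ : ∀ z : μ, p • z = 0)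
    (π : s56el2_GHom G P0 X) (κ : s56el2_GHom G P1 P0) (hπ : Function.Surjective π.1)
    (hex : ∀ b : P0, π.1 b = 0 ↔ ∃ a : P1, κ.1 a = b)
    (hRE : Function.Surjective (s56el2_push L π))
    (h0 : ∀ y : lvH2 L P0, s56el2_theta L P0 μ y = 0 → y = 0)
    (h1 : ∀ lam : s56el2_GHom G P1 μ →+ lvH2 L μ, ∃ y, s56el2_theta L P1 μ y = lam)
    (y : lvH2 L X) (hy : s56el2_theta L X μ y = 0) : y = 0 := by
  obtain ⟨y0, rfl⟩ := hRE y
  have hker : (s56el2_precomp (μ := μ) κ).ker ≤ (s56el2_theta L P0 μ y0).ker := by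
    intro n hn
    rw [AddMonoidHom.mem_ker] at hn ⊢
    have hn' : ∀ a : P1, n.1 (κ.1 a) = 0 := fun a => by
      have := congrArg (fun m : s56el2_GHom G P1 μ => m.1 a) hn
      exact this
    obtain ⟨m, rfl⟩ := s56el2_descend π hπ n (fun b hb => by
      obtain ⟨a, rfl⟩ := (hex b).1 hb
      exact hn' a)
    rw [← s56el2_theta_push, hy]
    rfl
  obtain ⟨lam1, hlam1⟩ := s56el2_extend p (s56el2_ghom_torsion p hμ) (s56el2_ghom_torsion p hμ)
    (s56el2_lvH2_torsion L p hμ) (s56el2_precomp (μ := μ) κ) (s56el2_theta L P0 μ y0) hker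
  obtain ⟨y1, hy1⟩ := h1 lam1
  have hκ : s56el2_push L κ y1 = y0 := by
    rw [← sub_eq_zero]
    apply h0
    rw [map_sub, sub_eq_zero]
    apply AddMonoidHom.ext
    intro n
    rw [s56el2_theta_push, hy1, ← hlam1]
    rfl
  have hzero : s56el2_gcomp π κ = 0 := by
    apply s56el2_gext
    intro a
    exact (hex _).2 ⟨a, rfl⟩
  rw [← hκ, ← s56el2_push_comp, hzero, s56el2_push_zero]

end Four

end Fermat.Agent.S56
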