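import Fermat.Agent.S56.GW.EC.L2.Coeff

/-!
# [EC-L2] the kernel of an equivariant surjection, as a `G`-module, and its short exact sequence
-/

set_option autoImplicit false

namespace Fermat.Agent.S56

open Fermat.Agent.S55 groupCohomology

variable {G : Type*} [Group G] {B C : Type*} [AddCommGroup B] [DistribMulAction G B]
  [AddCommGroup C] [DistribMulAction G C]

/-- The kernel of an equivariant map. -/
def s56el2_Ker (π : s56el2_GHom G B C) : Type _ := ↥(π.1.ker)

variable (π : s56el2_GHom G B C)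

instance s56el2_Ker.instAddCommGroup : AddCommGroup (s56el2_Ker π) :=
  inferInstanceAs (AddCommGroup ↥(π.1.ker))

instance s56el2_Ker.instFinite [Finite B] : Finite (s56el2_Ker π) :=
  inferInstanceAs (Finite ↥(π.1.ker))

/-- The inclusion of the kernel, as an additive map. -/
def s56el2_Ker.val : s56el2_Ker π →+ B := (π.1.ker).subtype

theorem s56el2_Ker.val_injective : Function.Injective (s56el2_Ker.val π) :=
  Subtype.val_injective

theorem s56el2_Ker.map_val (a : s56el2_Ker π) : π.1 (s56el2_Ker.val π a) = 0 :=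
  AddMonoidHom.mem_ker.1 a.2

/-- An element of the kernel. -/
def s56el2_Ker.mk (b : B) (hb : π.1 b = 0) : s56el2_Ker π := ⟨b, AddMonoidHom.mem_ker.2 hb⟩

@[simp] theorem s56el2_Ker.val_mk (b : B) (hb : π.1 b = 0) :
    s56el2_Ker.val π (s56el2_Ker.mk π b hb) = b := rfl

instance s56el2_Ker.instAction : DistribMulAction G (s56el2_Ker π) where
  smul g a := s56el2_Ker.mk π (g • s56el2_Ker.val π a) (by
    rw [π.2, s56el2_Ker.map_val, smul_zero])
  one_smul a := s56el2_Ker.val_injective π (one_smul G (s56el2_Ker.val π a))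
  mul_smul g h a := s56el2_Ker.val_injective π (mul_smul g h (s56el2_Ker.val π a))
  smul_zero g := s56el2_Ker.val_injective π (smul_zero g)
  smul_add g a b := s56el2_Ker.val_injective π
    (smul_add g (s56el2_Ker.val π a) (s56el2_Ker.val π b))

theorem s56el2_Ker.val_smul (g : G) (a : s56el2_Ker π) :
    s56el2_Ker.val π (g • a) = g • s56el2_Ker.val π a := rfl

/-- The inclusion of the kernel, as an equivariant map. -/
def s56el2_kerIncl : s56el2_GHom G (s56el2_Ker π) B :=
  ⟨s56el2_Ker.val π, fun _ _ => rfl⟩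

@[simp] theorem s56el2_kerIncl_apply (a : s56el2_Ker π) :
    (s56el2_kerIncl π).1 a = s56el2_Ker.val π a := rfl

/-- The short exact sequence `0 → ker π → B → C → 0`. -/
def s56el2_kerSES (hπ : Function.Surjective π.1) : LvSES G (s56el2_Ker π) B C where
  i := s56el2_Ker.val π
  π := π.1
  i_equiv := fun _ _ => rfl
  π_equiv := π.2
  i_inj := s56el2_Ker.val_injective π
  π_surj := hπ
  exact := fun b => ⟨fun hb => ⟨s56el2_Ker.mk π b hb, rfl⟩, fun ⟨a, ha⟩ => ha ▸ s56el2_Ker.map_val π a⟩

theorem s56el2_kerSES_H2 (L : LevelSys G) (hπ : Function.Surjective π.1) :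
    ((s56el2_kerSES π hπ).mπ L).H2 = s56el2_push L π := rfl

theorem s56el2_Ker.torsion (p : ℕ) (hB : ∀ b : B, p • b = 0) (a : s56el2_Ker π) : p • a = 0 := by
  apply s56el2_Ker.val_injective π
  rw [map_nsmul, hB, map_zero]

theorem s56el2_Ker.fixed (H : Subgroup G) (hB : ∀ u ∈ H, ∀ b : B, u • b = b) :
    ∀ u ∈ H, ∀ a : s56el2_Ker π, u • a = a := by
  intro u hu a
  apply s56el2_Ker.val_injective π
  rw [s56el2_Ker.val_smul, hB u hu]

end Fermat.Agent.S56
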