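import Fermat.Agent.S56.GW.EC.L2.Pres
import Fermat.Agent.S56.GW.EC.L2.Four
import Fermat.Agent.S56.GW.EC.L2.Ker

/-!
# [EC-L2] the abstract core: `θ_X : H²(X) → Hom(Hom_G(X, μ), H²(μ))` is injective

`G` a group with a level system `L`, `p` a prime, `μ` a `G`-module of order `p`.  Assume
* right-exactness of `lvH2 L` on short exact sequences with finite `p`-torsion kernel;
* `H²(G, μ) ≠ 0`;
* `U ⊴ G` contains a level, acts trivially on `μ`, and `H²(U, μ)` has at most `p` elements.
Then `θ_X` is injective for every finite `p`-torsion `G`-module `X` on which `U` acts trivially.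
-/

set_option autoImplicit false
set_option linter.style.haveILetI false

namespace Fermat.Agent.S56

open Fermat.Agent.S55 groupCohomology

universe u

section

variable {G : Type u} [Group G] (L : LevelSys G) (p : ℕ)

/-- Right-exactness of `lvH2` on short exact sequences with finite `p`-torsion kernel. -/
def s56el2_RE : Prop :=
  ∀ (A B C : Type u) [AddCommGroup A] [DistribMulAction G A] [AddCommGroup B]
    [DistribMulAction G B] [AddCommGroup C] [DistribMulAction G C] (E : LvSES G A B C)
    [Finite A], L.IsSmooth B → (∀ a : A, p • a = 0) → Function.Surjective (E.mπ L).H2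

variable {L p}

/-- A surjection from a finite set of cardinality at most `p` onto a nontrivial `p`-torsion
group is bijective. -/
theorem s56el2_bij_of_card [hp : Fact p.Prime] {A B : Type*} [AddCommGroup B] [Finite A]
    (f : A → B) (hf : Function.Surjective f) (hA : Nat.card A ≤ p) (hB : ∀ b : B, p • b = 0)
    (hne : ∃ b : B, b ≠ 0) : Function.Bijective f ∧ Nat.card B = p := by
  have hfinB : Finite B := Finite.of_surjective f hf
  obtain ⟨b, hb⟩ := hne
  have hord : addOrderOf b = p := addOrderOf_eq_prime (hB b) hb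
  have hdvd : p ∣ Nat.card B := hord ▸ addOrderOf_dvd_natCard b
  have hpos : 0 < Nat.card B := Nat.card_pos
  have hle : p ≤ Nat.card B := Nat.le_of_dvd hpos hdvd
  have hle' : Nat.card B ≤ Nat.card A := Nat.card_le_card_of_surjective f hf
  have hAB : Nat.card A ≤ Nat.card B := hA.trans hle
  exact ⟨hf.bijective_of_nat_card_le hAB, le_antisymm (hle'.trans hA) hle⟩

/-- **The abstract core of [EC-L2].** -/
theorem s56el2_core [hp : Fact p.Prime] (hRE : s56el2_RE L p)
    (μ : Type u) [AddCommGroup μ] [DistribMulAction G μ] (hcard : Nat.card μ = p)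
    (hne : ∃ y : lvH2 L μ, y ≠ 0)
    (U : Subgroup G) [hUn : U.Normal] (hU : ∃ V ∈ L.levels, V ≤ U)
    (hUμ : ∀ u ∈ U, ∀ z : μ, u • z = z)
    (hfinU : Finite (lvH2 (s56esh_LU L U) μ)) (hcardU : Nat.card (lvH2 (s56esh_LU L U) μ) ≤ p)
    (X : Type u) [AddCommGroup X] [DistribMulAction G X] [Finite X]
    (hpX : ∀ x : X, p • x = 0) (hUX : ∀ u ∈ U, ∀ x : X, u • x = x) :
    Function.Injective (s56el2_theta L X μ) ∧ Nat.card (lvH2 L μ) = p := by
  classical
  -- finiteness of the index
  haveI : U.FiniteIndex := by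
    obtain ⟨V, hV, hVU⟩ := hU
    have := L.finiteIndex V hV
    exact Subgroup.finiteIndex_of_le hVU
  letI : Fintype (G ⧸ U) := Fintype.ofFinite _
  have hμfin : Finite μ := Nat.finite_of_card_ne_zero (by rw [hcard]; exact hp.out.ne_zero)
  have hμ : ∀ z : μ, p • z = 0 := fun z => by rw [← hcard]; exact card_nsmul_eq_zero'
  have hN := s56el2_smooth_of_fixed L U μ hUμ
  -- the generator
  have hRfin : Finite (s56esh_Coind L U μ) := s56el2_R_finite hU hUμ
  have hRtors : ∀ φ : s56esh_Coind L U μ, p • φ = 0 := s56el2_R_torsion p hμ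
  have hRfix : ∀ u ∈ U, ∀ φ : s56esh_Coind L U μ, u • φ = φ := s56el2_R_fixed hUμ
  have htr : Function.Surjective (s56el2_tr L U μ).1 := s56el2_tr_surjective hU hUμ
  -- the corestriction is bijective
  have hcorS : Function.Surjective (s56el2_push L (s56el2_tr L U μ)) := by
    rw [← s56el2_kerSES_H2 (s56el2_tr L U μ) L htr]
    exact hRE _ _ _ (s56el2_kerSES (s56el2_tr L U μ) htr) (s56esh_coind_smooth L U μ)
      (s56el2_Ker.torsion _ p hRtors)
  have hsh : Function.Bijective (s56esh_mor L U μ).H2 := s56esh_H2_bijective hU hN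
  have hfinR : Finite (lvH2 L (s56esh_Coind L U μ)) :=
    Finite.of_injective _ hsh.1
  have hcardR : Nat.card (lvH2 L (s56esh_Coind L U μ)) ≤ p := by
    rw [Nat.card_congr (Equiv.ofBijective _ hsh)]
    exact hcardU
  obtain ⟨hcorB, hΦ⟩ := s56el2_bij_of_card _ hcorS hcardR (s56el2_lvH2_torsion L p hμ) hne
  refine ⟨?_, hΦ⟩
  -- the presentation
  letI : Fintype X := Fintype.ofFinite X
  obtain ⟨ε, hε⟩ := s56el2_exists_pres (L := L) p hcard hU hUμ X hpX hUX
  have hP0fix : ∀ u ∈ U, ∀ F : X → s56esh_Coind L U μ, u • F = F := fun u hu F => by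
    funext x
    exact hRfix u hu (F x)
  have hP0tors : ∀ F : X → s56esh_Coind L U μ, p • F = 0 := fun F => by
    funext x
    exact hRtors (F x)
  have hKfin : Finite (s56el2_Ker ε) := inferInstance
  letI : Fintype (s56el2_Ker ε) := Fintype.ofFinite _
  obtain ⟨εK, hεK⟩ := s56el2_exists_pres (L := L) p hcard hU hUμ (s56el2_Ker ε)
    (s56el2_Ker.torsion ε p hP0tors) (s56el2_Ker.fixed ε U hP0fix)
  have hREX : Function.Surjective (s56el2_push L ε) := by
    rw [← s56el2_kerSES_H2 ε L hε]
    exact hRE _ _ _ (s56el2_kerSES ε hε) (s56el2_smooth_of_fixed' L U _ hU hP0fix)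
      (s56el2_Ker.torsion _ p hP0tors)
  rw [injective_iff_map_eq_zero]
  intro y hy
  refine s56el2_four L p hμ ε (s56el2_gcomp (s56el2_kerIncl ε) εK) hε ?_ hREX
    (s56el2_free_inj L (s56el2_tr L U μ) hcorB.1)
    (s56el2_free_surj L (s56el2_tr L U μ) hcorS (s56el2_hom_R hU hUμ p hcard)) y hy
  intro b
  constructor
  · intro hb
    obtain ⟨a, ha⟩ := hεK (s56el2_Ker.mk ε b hb)
    refine ⟨a, ?_⟩
    rw [s56el2_gcomp_apply, ha]
    rfl
  · rintro ⟨a, rfl⟩
    rw [s56el2_gcomp_apply]
    exact s56el2_Ker.map_val ε _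

end

end Fermat.Agent.S56
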