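import Fermat.Agent.S56.GW.EC.L2.Core

/-!
# [EC-L2] the count: `#H²(X) ≤ #Hom_G(X, μ)`
-/

set_option autoImplicit false
set_option linter.style.haveILetI false

namespace Fermat.Agent.S56

open Fermat.Agent.S55 groupCohomology

/-- A group of prime order `p` is isomorphic to `ZMod p`. -/
theorem s56el2_zmod_equiv (p : ℕ) [hp : Fact p.Prime] {Φ : Type*} [AddCommGroup Φ]
    (hΦ : Nat.card Φ = p) : Nonempty (ZMod p ≃+ Φ) := by
  have hcyc : IsAddCyclic Φ := isAddCyclic_of_prime_card hΦ
  subst hΦ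
  exact ⟨zmodAddCyclicAddEquiv hcyc⟩

theorem s56el2_card_dual (p : ℕ) [hp : Fact p.Prime] {V : Type*} [AddCommGroup V]
    [Module (ZMod p) V] [Finite V] :
    Finite (V →ₗ[ZMod p] ZMod p) ∧ Nat.card (V →ₗ[ZMod p] ZMod p) = Nat.card V := by
  have hfinV : Module.Finite (ZMod p) V := Module.Finite.of_finite
  have hfinD : Finite (V →ₗ[ZMod p] ZMod p) := by
    have hinj : Function.Injective (fun (l : V →ₗ[ZMod p] ZMod p) (v : V) => l v) :=
      fun l l' h => LinearMap.ext fun v => congrFun h v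
    exact Finite.of_injective _ hinj
  refine ⟨hfinD, ?_⟩
  have hdual : Module.finrank (ZMod p) (Module.Dual (ZMod p) V) = Module.finrank (ZMod p) V :=
    Subspace.dual_finrank_eq
  have h1 := Module.natCard_eq_pow_finrank (K := ZMod p) (V := Module.Dual (ZMod p) V)
  have h2 := Module.natCard_eq_pow_finrank (K := ZMod p) (V := V)
  rw [hdual] at h1
  rw [h2]
  exact h1

theorem s56el2_card_hom_zmod (p : ℕ) [hp : Fact p.Prime] {V : Type*} [AddCommGroup V]
    [Module (ZMod p) V] [Finite V] :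
    Finite (V →+ ZMod p) ∧ Nat.card (V →+ ZMod p) = Nat.card V := by
  let E : (V →+ ZMod p) ≃ (V →ₗ[ZMod p] ZMod p) :=
    { toFun := fun f => f.toZModLinearMap p
      invFun := fun l => l.toAddMonoidHom
      left_inv := fun f => AddMonoidHom.ext fun v => rfl
      right_inv := fun l => LinearMap.ext fun v => rfl }
  obtain ⟨h1, h2⟩ := s56el2_card_dual p (V := V)
  exact ⟨Finite.of_equiv _ E.symm, by rw [Nat.card_congr E, h2]⟩

/-- For a finite elementary abelian `p`-group `V` and a group `Φ` of order `p`, there are exactly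
`#V` additive maps `V → Φ`. -/
theorem s56el2_card_hom (p : ℕ) [hp : Fact p.Prime] {V Φ : Type*} [AddCommGroup V]
    [AddCommGroup Φ] [Finite V] (hV : ∀ v : V, p • v = 0) (hΦ : Nat.card Φ = p) :
    Finite (V →+ Φ) ∧ Nat.card (V →+ Φ) = Nat.card V := by
  obtain ⟨e⟩ := s56el2_zmod_equiv p hΦ
  letI : Module (ZMod p) V := AddCommGroup.zmodModule hV
  let E : (V →+ Φ) ≃ (V →+ ZMod p) :=
    { toFun := fun f => e.symm.toAddMonoidHom.comp f
      invFun := fun l => e.toAddMonoidHom.comp l
      left_inv := fun f => AddMonoidHom.ext fun v => by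
        show e (e.symm (f v)) = f v
        exact e.apply_symm_apply _
      right_inv := fun l => AddMonoidHom.ext fun v => by
        show e.symm (e (l v)) = l v
        exact e.symm_apply_apply _ }
  obtain ⟨h1, h2⟩ := s56el2_card_hom_zmod p (V := V)
  exact ⟨Finite.of_equiv _ E.symm, by rw [Nat.card_congr E, h2]⟩

universe u

variable {G : Type u} [Group G] {L : LevelSys G} {p : ℕ}

/-- **The count of [EC-L2]**, abstract form. -/
theorem s56el2_count [hp : Fact p.Prime] (hRE : s56el2_RE L p)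
    (μ : Type u) [AddCommGroup μ] [DistribMulAction G μ] (hcard : Nat.card μ = p)
    (hne : ∃ y : lvH2 L μ, y ≠ 0)
    (U : Subgroup G) [hUn : U.Normal] (hU : ∃ V ∈ L.levels, V ≤ U)
    (hUμ : ∀ u ∈ U, ∀ z : μ, u • z = z)
    (hfinU : Finite (lvH2 (s56esh_LU L U) μ)) (hcardU : Nat.card (lvH2 (s56esh_LU L U) μ) ≤ p)
    (X : Type u) [AddCommGroup X] [DistribMulAction G X] [Finite X]
    (hpX : ∀ x : X, p • x = 0) (hUX : ∀ u ∈ U, ∀ x : X, u • x = x) :
    Finite (lvH2 L X) ∧ Nat.card (lvH2 L X) ≤ Nat.card (s56el2_GHom G X μ) := by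
  obtain ⟨hinj, hΦ⟩ := s56el2_core hRE μ hcard hne U hU hUμ hfinU hcardU X hpX hUX
  have hμfin : Finite μ := Nat.finite_of_card_ne_zero (by rw [hcard]; exact hp.out.ne_zero)
  have hμ : ∀ z : μ, p • z = 0 := fun z => by rw [← hcard]; exact card_nsmul_eq_zero'
  have hVfin : Finite (s56el2_GHom G X μ) := by
    have : Finite (X →+ μ) := Finite.of_injective (fun f : X →+ μ => (f : X → μ))
      DFunLike.coe_injective
    exact inferInstanceAs (Finite ↥(s56el2_GHom G X μ))
  obtain ⟨hfin, hc⟩ := s56el2_card_hom p (V := s56el2_GHom G X μ) (Φ := lvH2 L μ)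
    (s56el2_ghom_torsion p hμ) hΦ
  refine ⟨Finite.of_injective _ hinj, ?_⟩
  rw [← hc]
  exact Nat.card_le_card_of_injective _ hinj

end Fermat.Agent.S56
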