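import Fermat.Agent.S56.GW.EC.L2.Main
import Fermat.Agent.S56.GW.EC.L2Lv.Inst

/-!
# [EC-L2] closed over the official local seams

`s56el2_final : s56l_RE_stmt → s56l_BR_stmt → s56egb_L2_stmt`: helper3's level-formalism half
`s56l2_loc` (`#H²(G_q, N) ≤ #Hom_{G_q}(N, μ_p)` from right-exactness + `Br`) composed with the
bridge of `L2/Bridge.lean` (`#Hom_{G_q}(M', μ_p) ≤ #M^{G_q}`, `lvH2 ↔ continuousH2`,
`finrank = log_p Nat.card`).
-/

set_option autoImplicit false
set_option linter.style.haveILetI false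

open CategoryTheory Module groupCohomology ExtCitation Fermat.Agent.S55

namespace Fermat.Agent.S56

local notation "GQ" => (AlgebraicClosure ℚ ≃ₐ[ℚ] AlgebraicClosure ℚ)

/-- The level-formalism form of `(L2≤)` (the conclusion of `s56l2_loc`). -/
def s56el2_Loc_stmt : Prop :=
  ∀ (p : ℕ) [Fact p.Prime] (q : Nat.Primes) (N : Type) [AddCommGroup N]
    [DistribMulAction (primeLocalGaloisGroup q) N] [Finite N],
    (∀ n : N, p • n = 0) → (tl_levelsLoc q).IsSmooth N →
    Finite (lvH2 (tl_levelsLoc q) N) ∧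
      Nat.card (lvH2 (tl_levelsLoc q) N) ≤
        Nat.card (lvH0 (G := primeLocalGaloisGroup q) (LvHom N ↥(s56l_mu p q)))

/-- Invariants of `LvHom` inject into the equivariant maps. -/
theorem s56el2_card_lvHom_le {G : Type*} [Group G] (N Z : Type*) [AddCommGroup N]
    [DistribMulAction G N] [AddCommGroup Z] [DistribMulAction G Z] [Finite N] [Finite Z] :
    Nat.card (lvH0 (G := G) (LvHom N Z)) ≤ Nat.card (s56el2_GHom G N Z) := by
  have : Finite (N →+ Z) := Finite.of_injective (fun f : N →+ Z => (f : N → Z))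
    DFunLike.coe_injective
  have hfin : Finite (s56el2_GHom G N Z) := inferInstanceAs (Finite ↥(s56el2_GHom G N Z))
  apply Nat.card_le_card_of_injective
    (fun φ : lvH0 (G := G) (LvHom N Z) =>
      (⟨LvHom.toHom φ.1, (LvHom.mem_lvH0_iff φ.1).1 φ.2⟩ : s56el2_GHom G N Z))
  intro φ ψ h
  apply Subtype.ext
  have h' := congrArg (fun x : s56el2_GHom G N Z => x.1) h
  exact LvHom.toHom.injective h'

/-- **The bridge**: the level-formalism form of `(L2≤)` implies the frozen form. -/
theorem s56el2_of_loc (hloc : s56el2_Loc_stmt) : s56egb_L2_stmt := by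
  intro p _ hp2 M _ hsm q
  have hp : Fact p.Prime := inferInstance
  have hXsm : (tl_levelsLoc q).IsSmooth (tl_Act (s56gw_res (s56gw_dual M) q)) :=
    s56el2_locSmooth (s56gw_dual M) (tl_dualTwist_smooth M hsm) q
  have hXfin : Finite (tl_Act (s56gw_res (s56gw_dual M) q)) := by
    have : Finite (Module.Dual (ZMod p) M) := Module.finite_of_finite (ZMod p)
    exact this
  have hpX : ∀ x : tl_Act (s56gw_res (s56gw_dual M) q), p • x = 0 :=
    fun x => ZModModule.char_nsmul_eq_zero p x
  obtain ⟨hfin, hle⟩ := hloc p q (tl_Act (s56gw_res (s56gw_dual M) q)) hpX hXsm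
  have hZfin : Finite ↥(s56l_mu p q) :=
    Nat.finite_of_card_ne_zero (by rw [s56l_mu_card p q]; exact hp.out.ne_zero)
  have hcard : Nat.card (continuousH2 (primeLocalToGlobal q) (s56gw_res (s56gw_dual M) q))
      = Nat.card (lvH2 (tl_levelsLoc q) (tl_Act (s56gw_res (s56gw_dual M) q))) :=
    Nat.card_congr (tl_H2via_equiv (primeLocalToGlobal q) (s56gw_res (s56gw_dual M) q)).toEquiv
  haveI hfin' : Finite (lvH2 (tl_levelsVia (primeLocalToGlobal q))
      (tl_Act (s56gw_res (s56gw_dual M) q))) := hfin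
  have hfinH : Finite (continuousH2 (primeLocalToGlobal q) (s56gw_res (s56gw_dual M) q)) :=
    Finite.of_equiv _
      (tl_H2via_equiv (primeLocalToGlobal q) (s56gw_res (s56gw_dual M) q)).toEquiv.symm
  have hMfin : Finite M := Module.finite_of_finite (ZMod p)
  have hle' := (hle.trans (s56el2_card_lvHom_le _ _)).trans (s56el2_hom_le M q)
  rw [← hcard, Module.natCard_eq_pow_finrank (K := ZMod p),
    Module.natCard_eq_pow_finrank (K := ZMod p) (V := (s56gw_res M q).ρ.invariants)] at hle'
  have hp1 : 1 < Nat.card (ZMod p) := by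
    rw [Nat.card_eq_fintype_card, ZMod.card]
    exact hp.out.one_lt
  exact (Nat.pow_le_pow_iff_right hp1).1 hle'

/-- **[EC-L2] CLOSED over the official local seams** `s56l_RE_stmt` ([LEC-RE]) and
`s56l_BR_stmt` ([LEC-H2]). -/
theorem s56el2_final (hRE : s56l_RE_stmt) (hBR : s56l_BR_stmt) : s56egb_L2_stmt :=
  s56el2_of_loc (fun p _ q N _ _ _ hp hsm => s56l2_loc p q hRE hBR N hp hsm)

end Fermat.Agent.S56
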