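import Fermat.Agent.S56.GW.EC.L2.Coeff

/-!
# [EC-L2] `θ` is bijective on finite powers of a generator

`R`, `μ` two `G`-modules and `π : R → μ` equivariant such that `π_* : H²(R) → H²(μ)` is bijective
and every equivariant map `R → μ` is a multiple of `π`.  Then for a finite type `ι`,
`θ : H²(ι → R) → Hom(Hom_G(ι → R, μ), H²(μ))` is bijective.
-/

set_option autoImplicit false

namespace Fermat.Agent.S56

open Fermat.Agent.S55 groupCohomology

variable {G : Type*} [Group G] (L : LevelSys G) {R μ : Type*} [AddCommGroup R]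
  [DistribMulAction G R] [AddCommGroup μ] [DistribMulAction G μ]
  {ι : Type*} [Fintype ι] [DecidableEq ι]

/-- Evaluation at `i`. -/
def s56el2_ev (G : Type*) [Group G] (R : Type*) [AddCommGroup R] [DistribMulAction G R]
    {ι : Type*} (i : ι) : s56el2_GHom G (ι → R) R :=
  ⟨Pi.evalAddMonoidHom (fun _ => R) i, fun _ _ => rfl⟩

/-- The `i`-th inclusion. -/
def s56el2_sg (G : Type*) [Group G] (R : Type*) [AddCommGroup R] [DistribMulAction G R]
    {ι : Type*} [DecidableEq ι] (i : ι) : s56el2_GHom G R (ι → R) :=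
  ⟨AddMonoidHom.single (fun _ => R) i, fun g x => by
    funext j
    show (Pi.single i (g • x) : ι → R) j = g • (Pi.single i x : ι → R) j
    by_cases h : j = i
    · subst h; rw [Pi.single_eq_same, Pi.single_eq_same]
    · rw [Pi.single_eq_of_ne h, Pi.single_eq_of_ne h, smul_zero]⟩

omit [Fintype ι] [DecidableEq ι] in
@[simp] theorem s56el2_ev_apply (i : ι) (f : ι → R) : (s56el2_ev G R i).1 f = f i := rfl

omit [Fintype ι] in
@[simp] theorem s56el2_sg_apply (i : ι) (x : R) : (s56el2_sg G R i).1 x = Pi.single i x := rfl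

theorem s56el2_sum_sg_ev :
    ∑ i : ι, s56el2_gcomp (s56el2_sg G R i) (s56el2_ev G R i) = s56el2_gid G (ι → R) := by
  apply s56el2_gext
  intro f
  rw [AddSubgroup.val_finsetSum, AddMonoidHom.finsetSum_apply]
  funext j
  rw [Finset.sum_apply, s56el2_gid_apply]
  rw [Finset.sum_eq_single j]
  · show (Pi.single j (f j) : ι → R) j = f j
    rw [Pi.single_eq_same]
  · intro i _ hij
    show (Pi.single i (f i) : ι → R) j = 0
    rw [Pi.single_eq_of_ne (Ne.symm hij)]
  · intro h
    exact (h (Finset.mem_univ _)).elim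

omit [Fintype ι] in
theorem s56el2_ev_sg_self (i : ι) :
    s56el2_gcomp (s56el2_ev G R i) (s56el2_sg G R i) = s56el2_gid G R := by
  apply s56el2_gext
  intro x
  show (Pi.single i x : ι → R) i = x
  rw [Pi.single_eq_same]

omit [Fintype ι] in
theorem s56el2_ev_sg_ne {i j : ι} (h : j ≠ i) :
    s56el2_gcomp (s56el2_ev G R j) (s56el2_sg G R i) = 0 := by
  apply s56el2_gext
  intro x
  show (Pi.single i x : ι → R) j = 0
  rw [Pi.single_eq_of_ne h]

/-- Every class of `H²(ι → R)` is the sum of its components. -/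
theorem s56el2_pi_decomp (y : lvH2 L (ι → R)) :
    y = ∑ i : ι, s56el2_push L (s56el2_sg G R i) (s56el2_push L (s56el2_ev G R i) y) := by
  conv_lhs => rw [← s56el2_push_id L y, ← s56el2_sum_sg_ev, s56el2_push_sum]
  apply Finset.sum_congr rfl
  intro i _
  rw [s56el2_push_comp]

omit [Fintype ι] in
theorem s56el2_ev_push_sg (i j : ι) (r : lvH2 L R) :
    s56el2_push L (s56el2_ev G R j) (s56el2_push L (s56el2_sg G R i) r)
      = if j = i then r else 0 := by
  rw [← s56el2_push_comp]
  by_cases h : j = i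
  · subst h
    rw [if_pos rfl, s56el2_ev_sg_self, s56el2_push_id]
  · rw [if_neg h, s56el2_ev_sg_ne h, s56el2_push_zero]

variable (π : s56el2_GHom G R μ)

/-- Injectivity of `θ` on `ι → R`. -/
theorem s56el2_free_inj (hcor : Function.Injective (s56el2_push L π)) (y : lvH2 L (ι → R))
    (h : s56el2_theta L (ι → R) μ y = 0) : y = 0 := by
  rw [s56el2_pi_decomp L y]
  apply Finset.sum_eq_zero
  intro i _
  have h1 : s56el2_push L (s56el2_ev G R i) y = 0 := by
    apply hcor
    rw [map_zero, ← s56el2_push_comp, ← s56el2_theta_apply, h]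
    rfl
  rw [h1, map_zero]

/-- Every equivariant map `(ι → R) → μ` is a combination of the `π ∘ ev_i`. -/
theorem s56el2_free_hom (hR : ∀ n : s56el2_GHom G R μ, ∃ a : ℕ, n = a • π)
    (n : s56el2_GHom G (ι → R) μ) :
    ∃ a : ι → ℕ, n = ∑ i : ι, a i • s56el2_gcomp π (s56el2_ev G R i) := by
  choose a ha using fun i : ι => hR (s56el2_gcomp n (s56el2_sg G R i))
  refine ⟨a, ?_⟩
  apply s56el2_gext
  intro f
  rw [AddSubgroup.val_finsetSum, AddMonoidHom.finsetSum_apply]
  have h1 : n.1 f = ∑ i : ι, n.1 (Pi.single i (f i) : ι → R) := by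
    rw [← map_sum]
    congr 1
    funext j
    rw [Finset.sum_apply, Finset.sum_eq_single j]
    · rw [Pi.single_eq_same]
    · intro i _ hij
      rw [Pi.single_eq_of_ne (Ne.symm hij)]
    · intro h
      exact (h (Finset.mem_univ _)).elim
  rw [h1]
  apply Finset.sum_congr rfl
  intro i _
  have h2 := congrArg (fun m : s56el2_GHom G R μ => m.1 (f i)) (ha i)
  simp only [s56el2_gcomp_apply, s56el2_sg_apply] at h2
  rw [h2]
  rfl

/-- Surjectivity of `θ` on `ι → R`. -/
theorem s56el2_free_surj (hcor : Function.Surjective (s56el2_push L π))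
    (hR : ∀ n : s56el2_GHom G R μ, ∃ a : ℕ, n = a • π)
    (lam : s56el2_GHom G (ι → R) μ →+ lvH2 L μ) :
    ∃ y : lvH2 L (ι → R), s56el2_theta L (ι → R) μ y = lam := by
  choose r hr using fun i : ι => hcor (lam (s56el2_gcomp π (s56el2_ev G R i)))
  have key : ∀ j : ι, s56el2_theta L (ι → R) μ
      (∑ i : ι, s56el2_push L (s56el2_sg G R i) (r i)) (s56el2_gcomp π (s56el2_ev G R j))
        = lam (s56el2_gcomp π (s56el2_ev G R j)) := by
    intro j
    rw [s56el2_theta_apply, s56el2_push_comp, map_sum, map_sum, Finset.sum_eq_single j]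
    · rw [s56el2_ev_push_sg, if_pos rfl, hr]
    · intro i _ hij
      rw [s56el2_ev_push_sg, if_neg (Ne.symm hij), map_zero]
    · intro h
      exact (h (Finset.mem_univ _)).elim
  refine ⟨∑ i : ι, s56el2_push L (s56el2_sg G R i) (r i), ?_⟩
  apply AddMonoidHom.ext
  intro n
  obtain ⟨a, rfl⟩ := s56el2_free_hom π hR n
  generalize (∑ i : ι, s56el2_push L (s56el2_sg G R i) (r i)) = y at key ⊢
  rw [map_sum (s56el2_theta L (ι → R) μ y), map_sum lam]
  apply Finset.sum_congr rfl
  intro j _
  rw [map_nsmul, map_nsmul, key]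

end Fermat.Agent.S56
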