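import Fermat.Agent.S56.GW.EC.L2.Ind
import Fermat.Agent.S56.GW.EC.L2.Free

/-!
# [EC-L2] the generator `R = Coind_U^G μ`

`U ≤ G` a normal subgroup containing a level and acting trivially on `μ`, a module of prime
order `p`.  Then `R := Coind_U^G μ` is a finite `p`-torsion module on which `U` acts trivially;
every equivariant map `R → μ` is a multiple of the trace `tr : R → μ`, and every finite
`p`-torsion module `X` with trivial `U`-action is an equivariant quotient of `X → R`.
-/

set_option autoImplicit false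

namespace Fermat.Agent.S56

open Fermat.Agent.S55 groupCohomology

variable {G : Type*} [Group G] (L : LevelSys G) (U : Subgroup G)
  (μ : Type*) [AddCommGroup μ] [DistribMulAction G μ]

/-- A module with trivial `U`-action is smooth for the induced level system. -/
theorem s56el2_smooth_of_fixed (hUμ : ∀ u ∈ U, ∀ z : μ, u • z = z) :
    (s56esh_LU L U).IsSmooth μ := by
  intro z
  obtain ⟨V, hV⟩ := L.nonempty
  exact ⟨V.comap U.subtype, ⟨V, hV, rfl⟩, fun u _ => hUμ (u : G) u.2 z⟩

/-- A module with trivial `U`-action is smooth if `U` contains a level. -/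
theorem s56el2_smooth_of_fixed' (hU : ∃ V ∈ L.levels, V ≤ U) (hUμ : ∀ u ∈ U, ∀ z : μ, u • z = z) :
    L.IsSmooth μ := by
  intro z
  obtain ⟨V, hV, hVU⟩ := hU
  exact ⟨V, hV, fun u hu => hUμ u (hVU hu) z⟩

variable {L U μ}

/-- `U` acts trivially on the coinduced module. -/
theorem s56el2_R_fixed [hUn : U.Normal] (hUμ : ∀ u ∈ U, ∀ z : μ, u • z = z) :
    ∀ u ∈ U, ∀ φ : s56esh_Coind L U μ, u • φ = φ := by
  intro u hu φ
  apply s56esh_coind_ext
  intro x
  rw [s56esh_smul_apply]
  have h1 : x * u * x⁻¹ ∈ U := hUn.conj_mem u hu x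
  have h2 : x * u = (⟨x * u * x⁻¹, h1⟩ : U) * x := by
    show x * u = x * u * x⁻¹ * x
    group
  rw [h2, s56esh_coind_equiv]
  exact hUμ _ h1 _

theorem s56el2_R_torsion (p : ℕ) (hμ : ∀ z : μ, p • z = 0) (φ : s56esh_Coind L U μ) :
    p • φ = 0 := by
  apply s56esh_coind_ext
  intro x
  rw [AddSubgroup.coe_nsmul, Pi.smul_apply, hμ]
  rfl

section Fin

variable [Fintype (G ⧸ U)] (hU : ∃ V ∈ L.levels, V ≤ U) (hUμ : ∀ u ∈ U, ∀ z : μ, u • z = z)

include hU hUμ in
/-- The coinduced module of a finite module is finite. -/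
theorem s56el2_R_finite [Finite μ] : Finite (s56esh_Coind L U μ) := by
  have hN := s56el2_smooth_of_fixed L U μ hUμ
  apply Finite.of_injective
    (fun φ : s56esh_Coind L U μ => fun c : G ⧸ U => (φ : G → μ) c.out⁻¹)
  intro φ ψ h
  rw [← s56el2_lift_delta_id hU hN φ, ← s56el2_lift_delta_id hU hN ψ, s56el2_lift_apply,
    s56el2_lift_apply]
  apply Finset.sum_congr rfl
  intro c _
  rw [s56el2_term, s56el2_term]
  have := congrFun h c
  simp only at this
  rw [this]

/-- The trace `R → μ`. -/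
noncomputable def s56el2_tr (L : LevelSys G) (U : Subgroup G) (μ : Type*) [AddCommGroup μ]
    [DistribMulAction G μ] [Fintype (G ⧸ U)] : s56el2_GHom G (s56esh_Coind L U μ) μ :=
  s56el2_liftG (AddMonoidHom.id μ) (fun _ _ => rfl)

include hU hUμ in
theorem s56el2_tr_delta (z : μ) :
    (s56el2_tr L U μ).1 (s56el2_delta hU (s56el2_smooth_of_fixed L U μ hUμ) z) = z :=
  s56el2_lift_delta hU _ (AddMonoidHom.id μ) (fun _ _ => rfl) z

include hU hUμ in
theorem s56el2_tr_surjective : Function.Surjective (s56el2_tr L U μ).1 :=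
  fun z => ⟨_, s56el2_tr_delta hU hUμ z⟩

end Fin

/-- Additive endomorphisms of a group of prime order are multiplications by integers. -/
theorem s56el2_end_prime (p : ℕ) [hp : Fact p.Prime] (hcard : Nat.card μ = p) (f : μ →+ μ) :
    ∃ a : ℕ, f = a • AddMonoidHom.id μ := by
  have hfin : Finite μ := Nat.finite_of_card_ne_zero (by rw [hcard]; exact hp.out.ne_zero)
  have hcyc : IsAddCyclic μ := isAddCyclic_of_prime_card hcard
  obtain ⟨ζ, hζ⟩ := hcyc.exists_generator
  have hmul : ∀ x : μ, ∃ m : ℕ, m • ζ = x := fun x => by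
    have h1 : x ∈ AddSubmonoid.multiples ζ := mem_multiples_iff_mem_zmultiples.2 (hζ x)
    exact (AddSubmonoid.mem_multiples_iff _ _).1 h1
  obtain ⟨a, ha⟩ := hmul (f ζ)
  refine ⟨a, AddMonoidHom.ext fun x => ?_⟩
  obtain ⟨m, rfl⟩ := hmul x
  rw [map_nsmul, ← ha, AddMonoidHom.nsmul_apply, AddMonoidHom.id_apply, smul_comm]

section Hom

variable [Fintype (G ⧸ U)] (hU : ∃ V ∈ L.levels, V ≤ U) (hUμ : ∀ u ∈ U, ∀ z : μ, u • z = z)

include hU hUμ in
/-- Every equivariant map `R → μ` is a multiple of the trace. -/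
theorem s56el2_hom_R (p : ℕ) [hp : Fact p.Prime] (hcard : Nat.card μ = p)
    (n : s56el2_GHom G (s56esh_Coind L U μ) μ) : ∃ a : ℕ, n = a • s56el2_tr L U μ := by
  have hN := s56el2_smooth_of_fixed L U μ hUμ
  obtain ⟨a, ha⟩ := s56el2_end_prime p hcard (n.1.comp (s56el2_delta hU hN))
  refine ⟨a, s56el2_gext fun φ => ?_⟩
  rw [s56el2_eq_lift hU hN n φ, ha, s56el2_lift_nsmul, AddSubgroup.coe_nsmul,
    AddMonoidHom.nsmul_apply]
  rfl

end Hom

end Fermat.Agent.S56
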