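import Fermat.Agent.S56.GW.EC.L2.Coeff
import Fermat.Agent.S56.GW.EC.Sh.H2

/-!
# [EC-L2] Frobenius reciprocity for the (co)induced module of a finite-index subgroup

`U ≤ G` of finite index containing a level, `N` a smooth `U`-module, `Y` a `G`-module.

* `s56el2_delta z : Coind_U^G N` : the function supported on `U`, `u ↦ u • z`;
* `s56el2_lift f : Coind_U^G N →+ Y` for a `U`-equivariant `f : N →+ Y`:
  `φ ↦ ∑_{c ∈ G/U} c • f (φ c⁻¹)`; it is `G`-equivariant, `lift f (δ z) = f z`,
  `lift δ = id`, and every `G`-map `n` out of the coinduced module is `lift (n ∘ δ)`.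
-/

set_option autoImplicit false

namespace Fermat.Agent.S56

open Fermat.Agent.S55 groupCohomology

variable {G : Type*} [Group G] {L : LevelSys G} {U : Subgroup G}
  {N : Type*} [AddCommGroup N] [DistribMulAction U N]

section Delta

variable (U) in
/-- The function supported on `U` with `u ↦ u • z`. -/
noncomputable def s56el2_deltaFun (z : N) : G → N := by
  classical
  exact fun g => if h : g ∈ U then (⟨g, h⟩ : U) • z else 0

theorem s56el2_deltaFun_of_mem (z : N) {g : G} (h : g ∈ U) :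
    s56el2_deltaFun U z g = (⟨g, h⟩ : U) • z := by
  classical
  rw [s56el2_deltaFun, dif_pos h]

theorem s56el2_deltaFun_of_not_mem (z : N) {g : G} (h : g ∉ U) :
    s56el2_deltaFun U z g = 0 := by
  classical
  rw [s56el2_deltaFun, dif_neg h]

theorem s56el2_deltaFun_mem (hU : ∃ V ∈ L.levels, V ≤ U) (hN : (s56esh_LU L U).IsSmooth N)
    (z : N) : s56el2_deltaFun U z ∈ s56esh_coind L U N := by
  refine ⟨fun u x => ?_, ?_⟩
  · by_cases hx : x ∈ U
    · have hux : (u : G) * x ∈ U := U.mul_mem u.2 hx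
      rw [s56el2_deltaFun_of_mem z hux, s56el2_deltaFun_of_mem z hx, ← mul_smul]
      rfl
    · have hux : (u : G) * x ∉ U := fun h => hx (by
        have := U.mul_mem (U.inv_mem u.2) h
        rwa [inv_mul_cancel_left] at this)
      rw [s56el2_deltaFun_of_not_mem z hux, s56el2_deltaFun_of_not_mem z hx, smul_zero]
  · obtain ⟨V₀, hV₀, hV₀U⟩ := hU
    obtain ⟨_, ⟨V, hV, rfl⟩, hfix⟩ := hN z
    obtain ⟨W, hW, hWle⟩ := L.directed V hV V₀ hV₀
    refine ⟨W, hW, fun x w hw => ?_⟩
    have hwU : w ∈ U := hV₀U (hWle hw).2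
    by_cases hx : x ∈ U
    · have hxw : x * w ∈ U := U.mul_mem hx hwU
      rw [s56el2_deltaFun_of_mem z hxw, s56el2_deltaFun_of_mem z hx]
      have e : (⟨x * w, hxw⟩ : U) = ⟨x, hx⟩ * ⟨w, hwU⟩ := rfl
      rw [e, mul_smul]
      congr 1
      exact hfix ⟨w, hwU⟩ (hWle hw).1
    · have hxw : x * w ∉ U := fun h => hx (by
        have := U.mul_mem h (U.inv_mem hwU)
        rwa [mul_inv_cancel_right] at this)
      rw [s56el2_deltaFun_of_not_mem z hxw, s56el2_deltaFun_of_not_mem z hx]

/-- `δ : N → Coind_U^G N`. -/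
noncomputable def s56el2_delta (hU : ∃ V ∈ L.levels, V ≤ U)
    (hN : (s56esh_LU L U).IsSmooth N) : N →+ s56esh_Coind L U N where
  toFun z := ⟨s56el2_deltaFun U z, s56el2_deltaFun_mem hU hN z⟩
  map_zero' := by
    apply s56esh_coind_ext
    intro x
    show s56el2_deltaFun U (0 : N) x = 0
    by_cases hx : x ∈ U
    · rw [s56el2_deltaFun_of_mem _ hx, smul_zero]
    · rw [s56el2_deltaFun_of_not_mem _ hx]
  map_add' z z' := by
    apply s56esh_coind_ext
    intro x
    show s56el2_deltaFun U (z + z') x = s56el2_deltaFun U z x + s56el2_deltaFun U z' x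
    by_cases hx : x ∈ U
    · rw [s56el2_deltaFun_of_mem _ hx, s56el2_deltaFun_of_mem _ hx, s56el2_deltaFun_of_mem _ hx,
        smul_add]
    · rw [s56el2_deltaFun_of_not_mem _ hx, s56el2_deltaFun_of_not_mem _ hx,
        s56el2_deltaFun_of_not_mem _ hx, add_zero]

variable (hU : ∃ V ∈ L.levels, V ≤ U) (hN : (s56esh_LU L U).IsSmooth N)

theorem s56el2_delta_apply (z : N) (x : G) :
    ((s56el2_delta hU hN z : s56esh_Coind L U N) : G → N) x = s56el2_deltaFun U z x := rfl

theorem s56el2_delta_of_mem (z : N) {g : G} (h : g ∈ U) :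
    ((s56el2_delta hU hN z : s56esh_Coind L U N) : G → N) g = (⟨g, h⟩ : U) • z :=
  s56el2_deltaFun_of_mem z h

theorem s56el2_delta_of_not_mem (z : N) {g : G} (h : g ∉ U) :
    ((s56el2_delta hU hN z : s56esh_Coind L U N) : G → N) g = 0 :=
  s56el2_deltaFun_of_not_mem z h

/-- `δ` is `U`-equivariant. -/
theorem s56el2_delta_smul (u : U) (z : N) :
    s56el2_delta hU hN (u • z) = (u : G) • s56el2_delta hU hN z := by
  apply s56esh_coind_ext
  intro x
  rw [s56esh_smul_apply]
  by_cases hx : x ∈ U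
  · have hxu : x * (u : G) ∈ U := U.mul_mem hx u.2
    rw [s56el2_delta_of_mem hU hN _ hx, s56el2_delta_of_mem hU hN _ hxu, ← mul_smul]
    rfl
  · have hxu : x * (u : G) ∉ U := fun h => hx (by
      have := U.mul_mem h (U.inv_mem u.2)
      rwa [mul_inv_cancel_right] at this)
    rw [s56el2_delta_of_not_mem hU hN _ hx, s56el2_delta_of_not_mem hU hN _ hxu]

end Delta

section Lift

variable {Y : Type*} [AddCommGroup Y] [DistribMulAction G Y]

/-- The summand of the lift attached to a representative `g`. -/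
def s56el2_term (f : N →+ Y) (φ : s56esh_Coind L U N) (g : G) : Y :=
  g • f ((φ : G → N) g⁻¹)

theorem s56el2_term_mul (f : N →+ Y) (hf : ∀ (u : U) (z : N), f (u • z) = (u : G) • f z)
    (φ : s56esh_Coind L U N) (g : G) (u : U) :
    s56el2_term f φ (g * (u : G)) = s56el2_term f φ g := by
  rw [s56el2_term, s56el2_term, mul_inv_rev]
  have h1 : (φ : G → N) ((u : G)⁻¹ * g⁻¹) = u⁻¹ • (φ : G → N) g⁻¹ :=
    s56esh_coind_equiv φ u⁻¹ g⁻¹
  rw [h1, hf, mul_smul, Subgroup.coe_inv, smul_inv_smul]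

theorem s56el2_term_out (f : N →+ Y) (hf : ∀ (u : U) (z : N), f (u • z) = (u : G) • f z)
    (φ : s56esh_Coind L U N) (g : G) :
    s56el2_term f φ (QuotientGroup.mk g : G ⧸ U).out = s56el2_term f φ g := by
  obtain ⟨u, hu⟩ := QuotientGroup.mk_out_eq_mul U g
  rw [hu, s56el2_term_mul f hf]

variable [Fintype (G ⧸ U)]

/-- The `G`-map out of the coinduced module attached to a `U`-map `f : N → Y`. -/
noncomputable def s56el2_lift (f : N →+ Y) : s56esh_Coind L U N →+ Y where
  toFun φ := ∑ c : G ⧸ U, s56el2_term f φ c.out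
  map_zero' := by
    apply Finset.sum_eq_zero
    intro c _
    show c.out • f ((0 : G → N) c.out⁻¹) = 0
    rw [Pi.zero_apply, map_zero, smul_zero]
  map_add' φ ψ := by
    rw [← Finset.sum_add_distrib]
    apply Finset.sum_congr rfl
    intro c _
    show c.out • f (((φ : G → N) + (ψ : G → N)) c.out⁻¹) = _
    rw [Pi.add_apply, map_add, smul_add]
    rfl

theorem s56el2_lift_apply (f : N →+ Y) (φ : s56esh_Coind L U N) :
    s56el2_lift f φ = ∑ c : G ⧸ U, s56el2_term f φ c.out := rfl

/-- The lift is `G`-equivariant. -/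
theorem s56el2_lift_smul (f : N →+ Y) (hf : ∀ (u : U) (z : N), f (u • z) = (u : G) • f z)
    (h : G) (φ : s56esh_Coind L U N) :
    s56el2_lift f (h • φ) = h • s56el2_lift f φ := by
  rw [s56el2_lift_apply, s56el2_lift_apply, Finset.smul_sum]
  rw [← Equiv.sum_comp (MulAction.toPerm h⁻¹ : Equiv.Perm (G ⧸ U))
    (fun c => h • s56el2_term f φ c.out)]
  apply Finset.sum_congr rfl
  intro c _
  have e1 : (MulAction.toPerm h⁻¹ : Equiv.Perm (G ⧸ U)) c
      = (QuotientGroup.mk (h⁻¹ * c.out) : G ⧸ U) := by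
    rw [MulAction.toPerm_apply]
    conv_lhs => rw [← QuotientGroup.out_eq' c]
    rfl
  rw [e1, s56el2_term_out f hf]
  show c.out • f ((φ : G → N) (c.out⁻¹ * h)) = h • ((h⁻¹ * c.out) • f ((φ : G → N) (h⁻¹ * c.out)⁻¹))
  rw [smul_smul, mul_inv_cancel_left, mul_inv_rev, inv_inv]

/-- `lift f ∘ δ = f`. -/
theorem s56el2_lift_delta (hU : ∃ V ∈ L.levels, V ≤ U) (hN : (s56esh_LU L U).IsSmooth N)
    (f : N →+ Y) (hf : ∀ (u : U) (z : N), f (u • z) = (u : G) • f z) (z : N) :
    s56el2_lift f (s56el2_delta hU hN z) = f z := by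
  rw [s56el2_lift_apply]
  rw [Finset.sum_eq_single (QuotientGroup.mk (1 : G) : G ⧸ U)]
  · rw [s56el2_term_out f hf, s56el2_term, inv_one, one_smul,
      s56el2_delta_of_mem hU hN z U.one_mem]
    congr 1
    exact one_smul U z
  · intro c _ hc
    have hout : c.out ∉ U := by
      intro h
      apply hc
      rw [← QuotientGroup.out_eq' c, eq_comm, QuotientGroup.eq, inv_one, one_mul]
      exact h
    have hout' : c.out⁻¹ ∉ U := fun h => hout (by simpa using U.inv_mem h)
    rw [s56el2_term, s56el2_delta_of_not_mem hU hN z hout', map_zero, smul_zero]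
  · intro h
    exact (h (Finset.mem_univ _)).elim

theorem s56el2_lift_add (f f' : N →+ Y) (φ : s56esh_Coind L U N) :
    s56el2_lift (f + f') φ = s56el2_lift f φ + s56el2_lift f' φ := by
  rw [s56el2_lift_apply, s56el2_lift_apply, s56el2_lift_apply, ← Finset.sum_add_distrib]
  apply Finset.sum_congr rfl
  intro c _
  show c.out • (f + f') _ = c.out • f _ + c.out • f' _
  rw [AddMonoidHom.add_apply, smul_add]

theorem s56el2_lift_nsmul (n : ℕ) (f : N →+ Y) (φ : s56esh_Coind L U N) :
    s56el2_lift (n • f) φ = n • s56el2_lift f φ := by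
  induction n with
  | zero =>
    rw [zero_smul, zero_smul, s56el2_lift_apply]
    apply Finset.sum_eq_zero
    intro c _
    show c.out • (0 : N →+ Y) _ = 0
    rw [AddMonoidHom.zero_apply, smul_zero]
  | succ n ih => rw [succ_nsmul, succ_nsmul, s56el2_lift_add, ih]

/-- `lift δ = id`: every element of the coinduced module is a sum of translates of `δ`'s. -/
theorem s56el2_lift_delta_id (hU : ∃ V ∈ L.levels, V ≤ U) (hN : (s56esh_LU L U).IsSmooth N)
    (φ : s56esh_Coind L U N) :
    s56el2_lift (s56el2_delta hU hN) φ = φ := by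
  have hf : ∀ (u : U) (z : N), s56el2_delta hU hN (u • z) = (u : G) • s56el2_delta hU hN z :=
    s56el2_delta_smul hU hN
  apply s56esh_coind_ext
  intro x
  rw [s56el2_lift_apply, AddSubgroup.val_finsetSum, Finset.sum_apply]
  rw [Finset.sum_eq_single (QuotientGroup.mk x⁻¹ : G ⧸ U)]
  · rw [s56el2_term_out _ hf, s56el2_term, s56esh_smul_apply, mul_inv_cancel, inv_inv,
      s56el2_delta_of_mem hU hN _ U.one_mem]
    exact one_smul U _
  · intro c _ hc
    rw [s56el2_term, s56esh_smul_apply]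
    apply s56el2_delta_of_not_mem
    intro h
    apply hc
    rw [← QuotientGroup.out_eq' c, eq_comm, QuotientGroup.eq, inv_inv]
    exact h
  · intro h
    exact (h (Finset.mem_univ _)).elim

/-- The lift as an equivariant map. -/
noncomputable def s56el2_liftG (f : N →+ Y) (hf : ∀ (u : U) (z : N), f (u • z) = (u : G) • f z) :
    s56el2_GHom G (s56esh_Coind L U N) Y :=
  ⟨s56el2_lift f, fun g φ => s56el2_lift_smul f hf g φ⟩

theorem s56el2_liftG_apply (f : N →+ Y) (hf : ∀ (u : U) (z : N), f (u • z) = (u : G) • f z)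
    (φ : s56esh_Coind L U N) : (s56el2_liftG (L := L) f hf).1 φ = s56el2_lift f φ := rfl

/-- Every equivariant map out of the coinduced module is the lift of its restriction to `δ`. -/
theorem s56el2_eq_lift (hU : ∃ V ∈ L.levels, V ≤ U) (hN : (s56esh_LU L U).IsSmooth N)
    (n : s56el2_GHom G (s56esh_Coind L U N) Y) (φ : s56esh_Coind L U N) :
    n.1 φ = s56el2_lift (n.1.comp (s56el2_delta hU hN)) φ := by
  conv_lhs => rw [← s56el2_lift_delta_id hU hN φ]
  rw [s56el2_lift_apply, map_sum, s56el2_lift_apply]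
  apply Finset.sum_congr rfl
  intro c _
  rw [s56el2_term, s56el2_term, n.2]
  rfl

end Lift

end Fermat.Agent.S56
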