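import Fermat.Agent.S56.GW.EC.L2.Bridge
import Fermat.Agent.S56.GW.EC.GB.Basic

/-!
# [EC-L2] the local seam `s56egb_L2_stmt` of [EC-GB]

`s56el2_L2 : s56l_RE_stmt → s56el2_Mu_stmt → s56egb_L2_stmt`.
-/

set_option autoImplicit false

namespace Fermat.Agent.S56

/-- **[EC-L2]** in the spelling consumed by [EC-GB]. -/
theorem s56el2_L2 (hRE : s56l_RE_stmt) (hMu : s56el2_Mu_stmt) : s56egb_L2_stmt :=
  s56el2_main hRE hMu

end Fermat.Agent.S56
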