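import Fermat.Agent.S56.GW.EC.L2.Gen

/-!
# [EC-L2] free presentations: a finite `p`-torsion module with trivial `U`-action is an
equivariant quotient of `X → Coind_U^G μ`
-/

set_option autoImplicit false

namespace Fermat.Agent.S56

open Fermat.Agent.S55 groupCohomology

variable {G : Type*} [Group G] {L : LevelSys G} {U : Subgroup G}
  {μ : Type*} [AddCommGroup μ] [DistribMulAction G μ]

/-- An additive map from a group of prime order `p` to a `p`-torsion group with a prescribed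
value at a generator. -/
theorem s56el2_exists_hom (p : ℕ) [hp : Fact p.Prime] (hcard : Nat.card μ = p) :
    ∃ ζ : μ, ∀ (X : Type*) [AddCommGroup X], ∀ x : X, p • x = 0 →
      ∃ ν : μ →+ X, ν ζ = x := by
  have hcyc : IsAddCyclic μ := isAddCyclic_of_prime_card hcard
  subst hcard
  have e : ZMod (Nat.card μ) ≃+ μ := zmodAddCyclicAddEquiv hcyc
  refine ⟨e 1, fun X _ x hx => ?_⟩
  have h0 : (zmultiplesHom X x) ((Nat.card μ : ℕ) : ℤ) = 0 := by
    rw [zmultiplesHom_apply, natCast_zsmul, hx]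
  refine ⟨(ZMod.lift (Nat.card μ) ⟨zmultiplesHom X x, h0⟩).comp e.symm.toAddMonoidHom, ?_⟩
  rw [AddMonoidHom.comp_apply, AddEquiv.coe_toAddMonoidHom, e.symm_apply_apply]
  have h1 : ((1 : ℤ) : ZMod (Nat.card μ)) = 1 := Int.cast_one
  rw [← h1, ZMod.lift_coe]
  show (zmultiplesHom X x) 1 = x
  rw [zmultiplesHom_apply, one_zsmul]

variable [Fintype (G ⧸ U)]

/-- **Free presentation.** -/
theorem s56el2_exists_pres (p : ℕ) [hp : Fact p.Prime] (hcard : Nat.card μ = p)
    (hU : ∃ V ∈ L.levels, V ≤ U) (hUμ : ∀ u ∈ U, ∀ z : μ, u • z = z)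
    (X : Type*) [AddCommGroup X] [DistribMulAction G X] [Fintype X] [DecidableEq X]
    (hpX : ∀ x : X, p • x = 0) (hUX : ∀ u ∈ U, ∀ x : X, u • x = x) :
    ∃ ε : s56el2_GHom G (X → s56esh_Coind L U μ) X, Function.Surjective ε.1 := by
  have hN := s56el2_smooth_of_fixed L U μ hUμ
  obtain ⟨ζ, hζ⟩ := s56el2_exists_hom (μ := μ) p hcard
  choose ν hν using fun x : X => hζ X x (hpX x)
  have hνe : ∀ (x : X) (u : U) (z : μ), ν x (u • z) = (u : G) • ν x z := by
    intro x u z
    rw [hUX (u : G) u.2]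
    congr 1
    exact hUμ (u : G) u.2 z
  refine ⟨∑ x : X, s56el2_gcomp (s56el2_liftG (L := L) (ν x) (hνe x))
    (s56el2_ev G (s56esh_Coind L U μ) x), fun x => ?_⟩
  refine ⟨Pi.single x (s56el2_delta hU hN ζ), ?_⟩
  rw [AddSubgroup.val_finsetSum, AddMonoidHom.finsetSum_apply]
  rw [Finset.sum_eq_single x]
  · rw [s56el2_gcomp_apply, s56el2_ev_apply, Pi.single_eq_same, s56el2_liftG_apply,
      s56el2_lift_delta hU hN _ (hνe x), hν]
  · intro x' _ hx'
    rw [s56el2_gcomp_apply, s56el2_ev_apply, Pi.single_eq_of_ne hx', map_zero]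
  · intro h
    exact (h (Finset.mem_univ _)).elim

end Fermat.Agent.S56
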